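/-
Program MW (S17), height part H.  helper7.

ABSTRACT "HADAMARD-VANDERMONDE" INEQUALITY FROM THE UPPER HALF OF THE UNIFORM DECOMPOSITION
THEOREM, BY COFACTOR INDUCTION.

Data: a field `K` with an absolute value `v`, a set `Pt` of "points", for each point a coordinate
vector `x P : ι → K` (think: `x P = (x₀(P), …, x_M(P))`, a basis of `L(m·∞)` evaluated at `P`),
and a "distance" `d : Pt → Pt → ℝ`.

Hypothesis `UDUpper v x d C` (upper half of the uniform decomposition theorem for hyperplane
sections): if the linear form `s` vanishes at the distinct points of `T` and `Q ∉ T`, then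
`|s(Q)| ≤ C · ‖s‖ · ‖x Q‖ · ∏_{P ∈ T} d(P, Q)`.

Conclusion `hadamard_vandermonde`: for distinct points `P₀, …, P_{r-1}` and coordinates
`a₀, …, a_{r-1}`,
`|det (x_{a_i}(P_j))| ≤ C^r · ∏_j ‖x P_j‖ · ∏_{i<j} d(P_i, P_j)`.

Proof: the determinant, as a function of its last column, is a linear form `s` whose coefficients
are cofactors (so `‖s‖` is bounded by the induction hypothesis), and `s` vanishes at
`P₀, …, P_{r-2}` (two equal columns).  No analysis, no geometry: Mathlib only.
-/
import Mathlib

set_option autoImplicit false
set_option linter.unusedSectionVars false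

namespace Fermat.Agent.MW.Hadamard7

open Finset Matrix

variable {K : Type*} [Field K] (v : AbsoluteValue K ℝ)
variable {ι : Type*} [Fintype ι] [DecidableEq ι]
variable {Pt : Type*}

/-- The sup norm of a coordinate vector with respect to the absolute value `v`. -/
noncomputable def supNorm (y : ι → K) : ℝ := ⨆ i, v (y i)

theorem supNorm_nonneg (y : ι → K) : 0 ≤ supNorm v y :=
  Real.iSup_nonneg fun _ => v.nonneg _

theorem le_supNorm (y : ι → K) (i : ι) : v (y i) ≤ supNorm v y :=
  le_ciSup (Finite.bddAbove_range fun i => v (y i)) i

theorem supNorm_le {y : ι → K} {B : ℝ} (hB : 0 ≤ B) (h : ∀ i, v (y i) ≤ B) : supNorm v y ≤ B :=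
  Real.iSup_le h hB

/-- Upper half of the uniform decomposition theorem, as an abstract hypothesis. -/
def UDUpper (x : Pt → ι → K) (d : Pt → Pt → ℝ) (C : ℝ) : Prop :=
  ∀ (s : ι → K) (Q : Pt) (T : Finset Pt), Q ∉ T → (∀ P ∈ T, ∑ i, s i * x P i = 0) →
    v (∑ i, s i * x Q i) ≤ C * supNorm v s * supNorm v (x Q) * ∏ P ∈ T, d P Q

/-- The Hadamard-Vandermonde bound, defined recursively. -/
noncomputable def hvBound (x : Pt → ι → K) (d : Pt → Pt → ℝ) : (r : ℕ) → (Fin r → Pt) → ℝ
  | 0, _ => 1
  | r + 1, P => hvBound x d r (fun j => P j.castSucc) * supNorm v (x (P (Fin.last r))) *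
      ∏ j : Fin r, d (P j.castSucc) (P (Fin.last r))

theorem hvBound_nonneg (x : Pt → ι → K) {d : Pt → Pt → ℝ} (hd : ∀ P Q, 0 ≤ d P Q) :
    ∀ (r : ℕ) (P : Fin r → Pt), 0 ≤ hvBound v x d r P
  | 0, _ => zero_le_one
  | r + 1, P => by
      unfold hvBound
      exact mul_nonneg (mul_nonneg (hvBound_nonneg x hd r _) (supNorm_nonneg v _))
        (Finset.prod_nonneg fun j _ => hd _ _)

/-- Closed form of the bound: product of the norms times the product of the pairwise distances. -/
theorem hvBound_eq (x : Pt → ι → K) (d : Pt → Pt → ℝ) :
    ∀ (r : ℕ) (P : Fin r → Pt), hvBound v x d r P =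
      (∏ j, supNorm v (x (P j))) * ∏ j : Fin r, ∏ i ∈ univ.filter (· < j), d (P i) (P j)
  | 0, _ => by simp [hvBound]
  | r + 1, P => by
      unfold hvBound
      rw [hvBound_eq x d r, Fin.prod_univ_castSucc (f := fun j => supNorm v (x (P j))),
        Fin.prod_univ_castSucc
          (f := fun j : Fin (r + 1) => ∏ i ∈ univ.filter (· < j), d (P i) (P j))]
      have h1 : ∀ j : Fin r, (∏ i ∈ univ.filter (· < j.castSucc), d (P i) (P j.castSucc))
          = ∏ i ∈ univ.filter (· < j), d (P i.castSucc) (P j.castSucc) := by
        intro j
        rw [Finset.prod_filter, Finset.prod_filter, Fin.prod_univ_castSucc]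
        have : ¬ (Fin.last r < j.castSucc) := not_lt.mpr (Fin.le_last _)
        simp [this, Fin.castSucc_lt_castSucc_iff]
      have h2 : (∏ i ∈ univ.filter (· < Fin.last r), d (P i) (P (Fin.last r)))
          = ∏ j : Fin r, d (P j.castSucc) (P (Fin.last r)) := by
        rw [Finset.prod_filter, Fin.prod_univ_castSucc]
        simp [Fin.castSucc_lt_last]
      simp only [h1, h2]
      ring

section Main

variable {v}
variable {x : Pt → ι → K} {d : Pt → Pt → ℝ} {C : ℝ}

/-- **Hadamard-Vandermonde inequality** from the upper half of the uniform decomposition theorem.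
-/
theorem hadamard_vandermonde (hC : 1 ≤ C) (hd : ∀ P Q, 0 ≤ d P Q) (hUD : UDUpper v x d C) :
    ∀ (r : ℕ) (P : Fin r → Pt), Function.Injective P → ∀ a : Fin r → ι,
      v (Matrix.det (Matrix.of fun i j => x (P j) (a i))) ≤ C ^ r * hvBound v x d r P
  | 0, _, _, _ => by simp [hvBound]
  | r + 1, P, hP, a => by
      have hC0 : 0 ≤ C := zero_le_one.trans hC
      set M : Matrix (Fin (r + 1)) (Fin (r + 1)) K := Matrix.of fun i j => x (P j) (a i) with hM
      have hbound_nonneg : 0 ≤ C ^ (r + 1) * hvBound v x d (r + 1) P :=
        mul_nonneg (pow_nonneg hC0 _) (hvBound_nonneg v x hd _ _)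
      -- if `a` is not injective the determinant vanishes
      by_cases ha : Function.Injective a
      swap
      · obtain ⟨i, j, hij, hne⟩ : ∃ i j, a i = a j ∧ i ≠ j := by
          simpa [Function.Injective] using ha
        have : M.det = 0 := Matrix.det_zero_of_row_eq hne (by
          funext k
          simp [hM, hij])
        rw [this, map_zero]
        exact hbound_nonneg
      set l : Fin (r + 1) := Fin.last r with hl
      -- the cofactors along the last column
      set cof : Fin (r + 1) → K := fun i =>
        (-1) ^ ((i : ℕ) + (l : ℕ)) * (M.submatrix i.succAbove l.succAbove).det with hcof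
      -- the linear form "determinant as a function of the last column"
      set s : ι → K := fun b => ∑ i, if a i = b then cof i else 0 with hs
      -- Claim A: pairing `s` with the coordinate vector of `Q` is the determinant with last
      -- column replaced
      have claimA : ∀ Q : Pt, ∑ b, s b * x Q b = (M.updateCol l fun i => x Q (a i)).det := by
        intro Q
        rw [Matrix.det_succ_column _ l]
        simp only [Matrix.updateCol_self, Matrix.submatrix_updateCol_succAbove]
        simp only [hs, Finset.sum_mul]
        rw [Finset.sum_comm]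
        refine Finset.sum_congr rfl fun i _ => ?_
        simp only [ite_mul, zero_mul, Finset.sum_ite_eq, Finset.mem_univ, if_true, hcof]
        ring
      -- Claim B: `s` vanishes at the first `r` points
      have claimB : ∀ j : Fin r, ∑ b, s b * x (P j.castSucc) b = 0 := by
        intro j
        rw [claimA]
        refine Matrix.det_zero_of_column_eq (i := j.castSucc) (j := l)
          (Fin.castSucc_lt_last j).ne fun k => ?_
        rw [Matrix.updateCol_self, Matrix.updateCol_ne (Fin.castSucc_lt_last j).ne]
        simp [hM]
      -- Claim C: at the last point we recover the determinant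
      have claimC : ∑ b, s b * x (P l) b = M.det := by
        rw [claimA]
        congr 1
        ext i j
        by_cases hj : j = l
        · subst hj
          simp [hM]
        · rw [Matrix.updateCol_ne hj]
      -- Claim D: the norm of `s` is bounded by the induction hypothesis
      have hIH : ∀ i : Fin (r + 1), v (cof i) ≤ C ^ r * hvBound v x d r fun j => P j.castSucc := by
        intro i
        have hP' : Function.Injective fun j : Fin r => P j.castSucc :=
          hP.comp (Fin.castSucc_injective r)
        have h := hadamard_vandermonde hC hd hUD r (fun j => P j.castSucc) hP'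
          (fun i' => a (i.succAbove i'))
        have hsub : M.submatrix i.succAbove l.succAbove
            = Matrix.of fun i' j' => x (P (Fin.castSucc j')) (a (i.succAbove i')) := by
          ext i' j'
          simp [hM, hl, Fin.succAbove_last]
        simp only [hcof, map_mul, map_pow, map_neg_eq_map, map_one, one_pow, one_mul, hsub]
        exact h
      have hB0 : 0 ≤ C ^ r * hvBound v x d r fun j => P j.castSucc :=
        mul_nonneg (pow_nonneg hC0 _) (hvBound_nonneg v x hd _ _)
      have claimD : supNorm v s ≤ C ^ r * hvBound v x d r fun j => P j.castSucc := by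
        refine supNorm_le v hB0 fun b => ?_
        by_cases hb : ∃ i, a i = b
        · obtain ⟨i₀, hi₀⟩ := hb
          have : s b = cof i₀ := by
            simp only [hs]
            rw [Finset.sum_eq_single i₀]
            · simp [hi₀]
            · intro i _ hne
              have : a i ≠ b := fun h => hne (ha (h.trans hi₀.symm))
              simp [this]
            · intro h
              exact absurd (Finset.mem_univ _) h
          rw [this]
          exact hIH i₀
        · have : s b = 0 := by
            simp only [hs]
            refine Finset.sum_eq_zero fun i _ => ?_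
            have : a i ≠ b := fun h => hb ⟨i, h⟩
            simp [this]
          rw [this, map_zero]
          exact hB0
      -- apply the decomposition hypothesis
      set T : Finset Pt := Finset.univ.map ⟨fun j : Fin r => P j.castSucc,
        hP.comp (Fin.castSucc_injective r)⟩ with hT
      have hQT : P l ∉ T := by
        simp only [hT, Finset.mem_map, Finset.mem_univ, Function.Embedding.coeFn_mk, true_and,
          not_exists]
        intro j hj
        exact (Fin.castSucc_lt_last j).ne (hP hj)
      have hzero : ∀ P' ∈ T, ∑ i, s i * x P' i = 0 := by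
        intro P' hP'
        simp only [hT, Finset.mem_map, Finset.mem_univ, Function.Embedding.coeFn_mk, true_and]
          at hP'
        obtain ⟨j, rfl⟩ := hP'
        exact claimB j
      have key := hUD s (P l) T hQT hzero
      rw [claimC] at key
      have hprod : ∏ P' ∈ T, d P' (P l) = ∏ j : Fin r, d (P j.castSucc) (P l) := by
        rw [hT, Finset.prod_map]
        rfl
      rw [hprod] at key
      refine key.trans ?_
      have hprod_nonneg : 0 ≤ ∏ j : Fin r, d (P j.castSucc) (P l) :=
        Finset.prod_nonneg fun j _ => hd _ _
      calc C * supNorm v s * supNorm v (x (P l)) * ∏ j : Fin r, d (P j.castSucc) (P l)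
          ≤ C * (C ^ r * hvBound v x d r fun j => P j.castSucc) * supNorm v (x (P l)) *
              ∏ j : Fin r, d (P j.castSucc) (P l) := by
            gcongr
            exact supNorm_nonneg v _
        _ = C ^ (r + 1) * hvBound v x d (r + 1) P := by
            rw [hvBound]
            ring

/-- Closed-form version of `hadamard_vandermonde`. -/
theorem hadamard_vandermonde' (hC : 1 ≤ C) (hd : ∀ P Q, 0 ≤ d P Q) (hUD : UDUpper v x d C)
    (r : ℕ) (P : Fin r → Pt) (hP : Function.Injective P) (a : Fin r → ι) :
    v (Matrix.det (Matrix.of fun i j => x (P j) (a i))) ≤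
      C ^ r * ((∏ j, supNorm v (x (P j))) *
        ∏ j : Fin r, ∏ i ∈ univ.filter (· < j), d (P i) (P j)) := by
  rw [← hvBound_eq]
  exact hadamard_vandermonde hC hd hUD r P hP a

end Main

end Fermat.Agent.MW.Hadamard7
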