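/-
Program MW (S17), helper7.  TOP-LEVEL REDUCTION.

`S17` (Mordell-Weil for `J₀(N)(ℚ)`) follows, by Mathlib's descent theorem
`AddCommGroup.fg_of_descent'`, from two contracts on the group
`JQ N := (JZero N)^{Gal(ℚ̄/ℚ)}`:

* `WeakMW2 N`    : `JQ N / 2 JQ N` is finite (weak Mordell-Weil for `m = 2` only);
* `HeightMain N` : there is a function `h : JQ N → ℝ`, nonnegative, satisfying the parallelogram
                   law up to a constant, with finite sublevel sets (Northcott).

Everything else in the programme is a proof of one of these two contracts.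
-/
import Mathlib
import Fermat.Prelude.Def_ModularCurve_ArithmeticGalois

set_option autoImplicit false

open ModularCurve AlgebraicCurve

namespace Fermat.Agent.MW.Top7

noncomputable section

/-- The absolute Galois group of `ℚ`. -/
abbrev GQ : Type := AlgebraicClosure ℚ ≃ₐ[ℚ] AlgebraicClosure ℚ

/-- The Mordell-Weil group `J₀(N)(ℚ)`: Galois-fixed degree-zero divisor classes. -/
abbrev JQ (N : ℕ) : AddSubgroup (JZero N) := FixedPoints.addSubgroup GQ (JZero N)

/-- Weak Mordell-Weil for `m = 2`. -/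
def WeakMW2 (N : ℕ) : Prop :=
  (nsmulAddMonoidHom (α := ↥(JQ N)) 2).range.FiniteIndex

/-- The height contract: a nonnegative quasi-quadratic Northcott function on `J₀(N)(ℚ)`. -/
def HeightMain (N : ℕ) : Prop :=
  ∃ h : ↥(JQ N) → ℝ, (∀ x, 0 ≤ h x) ∧
    (∃ C : ℝ, ∀ x y, |h (x + y) + h (x - y) - 2 * (h x + h y)| ≤ C) ∧
    ∀ B : ℝ, {x | h x ≤ B}.Finite

/-- Mordell-Weil from the two contracts. -/
theorem fg_of_contracts (N : ℕ) (hW : WeakMW2 N) (hH : HeightMain N) :
    AddGroup.FG ↥(FixedPoints.addSubgroup GQ (JZero N)) := by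
  obtain ⟨h, h0, ⟨C, hC⟩, hfin⟩ := hH
  have : Northcott h := ⟨hfin⟩
  exact AddCommGroup.fg_of_descent' hW h0 hC

end

end Fermat.Agent.MW.Top7
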